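import Fermat.Agent.S41.Nodes.Unit
import Fermat.Agent.S28.CInt
import Fermat.Agent.DR.Conc.Frob

/-!
# S41 / NODES : the supersingular points and the two degeneracy maps, in characteristic `r`

`k` algebraically closed of characteristic `r`, `(N l : k) ≠ 0`, `l` prime.  `SS k r M` = the zeros of the Hasse function
`hsE k r M = Δ̄^(1-r)` on `Igusa.E k M` (`S36/Kron`).  `al = MR.Eis.alphaB k N l` (the inclusion), `be = MR.Eis.betaB k N l`
(`v(t) ↦ v(t^l)`).

* `integral_alphaB`, `integral_betaB`;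
* (`Nodes/Unit.lean`, helper53) `alphaB_hsE : al (hsE N) = hsE (N l)`; `ord_betaB_hsE : ord_z (be (hsE N)) = ord_z (hsE (N l))`
  at the non cuspidal places `z`;
* `ord_jb_alpha`, `ord_jb_beta` : cusps lie over cusps, non cusps over non cusps, for both maps;
* `Bar.mem_alpha`, `Bar.mem_beta` : `z|al ∈ SS(N) ↔ z ∈ SS(N l) ↔ z|be ∈ SS(N)`;
* `Bar.ram_alpha`, `Bar.ram_beta` : if all the zeros of `hsE` have order `12` at both levels then both maps are
  unramified at the points of `SS(N l)`;
* `Bar.Fr_alpha`, `Bar.Fr_beta` : restriction of places along `al`, `be` commutes with the Frobenius `Fr`.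
-/

set_option autoImplicit false
set_option linter.unusedSectionVars false
set_option linter.style.haveILetI false

noncomputable section

namespace Fermat.Agent.S41.Nodes

open Polynomial ModularCurve AlgebraicCurve Fermat.Agent.S24 Fermat.Agent.S28 Fermat.Agent.GAL
  Fermat.Agent.S36R.Unit Fermat.Agent.S36.Kron Fermat.Agent.Lib.RR Fermat.Agent.MR.Eis
  IntermediateField Fermat.Agent.S41.Nodes.Unit

variable (k : Type) [Field k] (N l : ℕ) [NeZero N] [NeZero l]

theorem betaB_eq : betaB k N l = betaBar k N l := rfl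

theorem integral_betaB (hNl : ((N * l : ℕ) : k) ≠ 0) : (betaB k N l).toRingHom.IsIntegral :=
  integral_betaBar k N l hNl

theorem alphaB_jb : alphaB k N l (Igusa.jb k N) = Igusa.jb k (N * l) := by
  apply Subtype.ext
  rw [coe_alphaB]
  rfl

theorem finiteAlong_alphaB (hNl : ((N * l : ℕ) : k) ≠ 0) : FiniteAlong k (alphaB k N l) := by
  haveI := Igusa.finiteDimensional_jb k (N * l) hNl
  haveI : FiniteDimensional k⟮alphaB k N l (Igusa.jb k N)⟯ (Igusa.E k (N * l)) := by
    rw [alphaB_jb]; infer_instance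
  exact Hecke.finiteAlong_of_finiteDimensional (alphaB k N l) (Igusa.jb k N)

theorem integral_alphaB (hNl : ((N * l : ℕ) : k) ≠ 0) : (alphaB k N l).toRingHom.IsIntegral :=
  RingHom.IsIntegral.of_finite (finiteAlong_alphaB k N l hNl)

/-- `Φ_l(j(t), j(t^l)) = 0`. -/
theorem Phi_rev {Φ U G : ℤ[X][X]} {m : ℕ} {c : ℤ} (hB : BData l Φ U G m c)
    (hlK : (l : AlgebraicClosure k) ≠ 0) :
    (Φ.map (evY (qExpand k l (jqModC k)))).eval (jqModC k) = 0 := by
  apply iota_injective k
  obtain ⟨ζ, hζ⟩ := exists_prim (p := l) hlK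
  rw [map_eval_evY, iota_qExpand_jqModC, iota_jqModC, ← Par.ofNat_one_pow l, step_factor hB ζ hζ,
    map_zero, eval_mul, eval_prod]
  refine mul_eq_zero_of_right _ (Finset.prod_eq_zero (i := 0)
    (Finset.mem_range.2 (Nat.pos_of_ne_zero (NeZero.ne l))) ?_)
  rw [pow_zero, Par.tw_one, eval_sub, eval_X, eval_C, sub_self]

theorem natCast_l_ne_zero (hNl : ((N * l : ℕ) : k) ≠ 0) : (l : k) ≠ 0 := by
  intro h
  apply hNl
  rw [Nat.cast_mul, h, mul_zero]

theorem natCast_N_ne_zero (hNl : ((N * l : ℕ) : k) ≠ 0) : (N : k) ≠ 0 := by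
  intro h
  apply hNl
  rw [Nat.cast_mul, h, zero_mul]

/-- `j(t)` is integral over `k[j(t^l)]`. -/
theorem isIntegral_jb_betaB (hl : l.Prime) (hNl : ((N * l : ℕ) : k) ≠ 0) :
    IsIntegral (Algebra.adjoin k {betaB k N l (Igusa.jb k N)}) (Igusa.jb k (N * l)) := by
  obtain ⟨Φ, U, G, m, c, hB⟩ := S28.statementB S28.statementA l hl
  have hlK : (l : AlgebraicClosure k) ≠ 0 := by
    have h := natCast_l_ne_zero k N l hNl
    rw [← map_natCast (algebraMap k (AlgebraicClosure k))]
    exact (_root_.map_ne_zero _).mpr h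
  refine isIntegral_of_evY Φ hB.2.1 (betaB k N l (Igusa.jb k N)) _ ?_ ?_
  · exact isIntegral_algebraMap (R := ↥(Algebra.adjoin k {betaB k N l (Igusa.jb k N)}))
      (A := Igusa.E k (N * l))
      (x := ⟨betaB k N l (Igusa.jb k N), Algebra.subset_adjoin (Set.mem_singleton _)⟩)
  · apply (algebraMap (Igusa.E k (N * l)) (LaurentSeries k)).injective
    rw [map_eval_evY, map_zero]
    exact Phi_rev k l hB hlK

variable [IsAlgClosed k]

theorem ram_pos {φ : Igusa.E k N →ₐ[k] Igusa.E k (N * l)} (hφ : φ.toRingHom.IsIntegral)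
    (z : Place k (Igusa.E k (N * l))) : (0 : ℤ) < Place.ramificationIndexAlong φ z := by
  have h4 : 0 < Place.ramificationIndexAlong φ z := by
    letI := algebraAlong φ
    haveI := isScalarTower_along φ
    haveI := isIntegral_along φ hφ
    exact z.ramificationIndex_pos (F := Igusa.E k N)
  exact_mod_cast h4

/-- cusps and non cusps, for `alphaB`. -/
theorem ord_jb_alpha (hal : (alphaB k N l).toRingHom.IsIntegral) (z : Place k (Igusa.E k (N * l))) :
    0 ≤ (z.restrictAlong (alphaB k N l) hal).ord (Igusa.jb k N) ↔ 0 ≤ z.ord (Igusa.jb k (N * l)) := by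
  have h := z.ord_restrictAlong (alphaB k N l) hal (Igusa.jb k N)
  rw [alphaB_jb] at h
  rw [h]
  have hp := ram_pos k N l hal z
  constructor
  · intro h1; positivity
  · intro h1
    by_contra h2
    push Not at h2
    nlinarith

/-- cusps and non cusps, for `betaB`. -/
theorem ord_jb_beta (hl : l.Prime) (hNl : ((N * l : ℕ) : k) ≠ 0)
    (hbe : (betaB k N l).toRingHom.IsIntegral) (z : Place k (Igusa.E k (N * l))) :
    0 ≤ (z.restrictAlong (betaB k N l) hbe).ord (Igusa.jb k N) ↔ 0 ≤ z.ord (Igusa.jb k (N * l)) := by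
  have h := z.ord_restrictAlong (betaB k N l) hbe (Igusa.jb k N)
  have hp := ram_pos k N l hbe z
  have hb0 : betaB k N l (Igusa.jb k N) ≠ 0 :=
    (map_ne_zero_iff _ (betaB k N l).injective).2 (jb_ne_zero k N)
  constructor
  · intro h1
    have h2 : 0 ≤ z.ord (betaB k N l (Igusa.jb k N)) := by rw [h]; positivity
    exact Fermat.Agent.S24.ord_nonneg_of_mem z (Igusa.mem_place_of_isIntegral z
      (Fermat.Agent.S24.mem_of_ord_nonneg z hb0 h2) (isIntegral_jb_betaB k N l hl hNl))
  · intro h1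
    exact restrictAlong_mem_nonCusp k N l hNl z h1

variable (r : ℕ) [NeZero r] [Fact r.Prime] [CharP k r]

variable [Lib.RR.IsFF k (Igusa.E k N)] [Lib.RR.IsFF k (Igusa.E k (N * l))]

namespace Bar

/-- `z|al ∈ SS(N) ↔ z ∈ SS(N l)`. -/
theorem mem_alpha (hal : (alphaB k N l).toRingHom.IsIntegral) (z : Place k (Igusa.E k (N * l))) :
    z.restrictAlong (alphaB k N l) hal ∈ SS k r N ↔ z ∈ SS k r (N * l) := by
  have h := z.ord_restrictAlong (alphaB k N l) hal (hsE k r N)
  rw [alphaB_hsE] at h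
  have hp := ram_pos k N l hal z
  rw [mem_SS, mem_SS, h]
  constructor
  · intro h1; positivity
  · intro h1
    by_contra h2
    push Not at h2
    nlinarith

/-- `alphaB` is unramified at the supersingular points. -/
theorem ram_alpha (h12 : ∀ e ∈ SS k r N, e.ord (hsE k r N) = 12)
    (h12' : ∀ e ∈ SS k r (N * l), e.ord (hsE k r (N * l)) = 12)
    (hal : (alphaB k N l).toRingHom.IsIntegral) (z : Place k (Igusa.E k (N * l)))
    (hz : z ∈ SS k r (N * l)) : Place.ramificationIndexAlong (alphaB k N l) z = 1 := by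
  have h := z.ord_restrictAlong (alphaB k N l) hal (hsE k r N)
  rw [alphaB_hsE, h12' z hz, h12 _ ((mem_alpha k N l r hal z).2 hz)] at h
  have : (Place.ramificationIndexAlong (alphaB k N l) z : ℤ) = 1 := by linarith
  exact_mod_cast this

/-- `z|be ∈ SS(N) ↔ z ∈ SS(N l)`. -/
theorem mem_beta (hl : l.Prime) (hNl : ((N * l : ℕ) : k) ≠ 0)
    (hbe : (betaB k N l).toRingHom.IsIntegral) (z : Place k (Igusa.E k (N * l))) :
    z.restrictAlong (betaB k N l) hbe ∈ SS k r N ↔ z ∈ SS k r (N * l) := by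
  have h := z.ord_restrictAlong (betaB k N l) hbe (hsE k r N)
  have hp := ram_pos k N l hbe z
  have hlk := natCast_l_ne_zero k N l hNl
  constructor
  · intro h1
    have hz : 0 ≤ z.ord (Igusa.jb k (N * l)) :=
      (ord_jb_beta k N l hl hNl hbe z).1 (ord_jb_nonneg_of_mem_SS k r N h1)
    rw [ord_betaB_hsE k l r N hl hlk z hz] at h
    rw [mem_SS] at h1 ⊢
    rw [h]
    positivity
  · intro h1
    have hz : 0 ≤ z.ord (Igusa.jb k (N * l)) := ord_jb_nonneg_of_mem_SS k r (N * l) h1
    rw [ord_betaB_hsE k l r N hl hlk z hz] at h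
    rw [mem_SS] at h1 ⊢
    rw [h] at h1
    by_contra h2
    push Not at h2
    nlinarith

/-- `betaB` is unramified at the supersingular points. -/
theorem ram_beta (hl : l.Prime) (hNl : ((N * l : ℕ) : k) ≠ 0)
    (h12 : ∀ e ∈ SS k r N, e.ord (hsE k r N) = 12)
    (h12' : ∀ e ∈ SS k r (N * l), e.ord (hsE k r (N * l)) = 12)
    (hbe : (betaB k N l).toRingHom.IsIntegral) (z : Place k (Igusa.E k (N * l)))
    (hz : z ∈ SS k r (N * l)) : Place.ramificationIndexAlong (betaB k N l) z = 1 := by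
  have h := z.ord_restrictAlong (betaB k N l) hbe (hsE k r N)
  rw [ord_betaB_hsE k l r N hl (natCast_l_ne_zero k N l hNl) z
    (ord_jb_nonneg_of_mem_SS k r (N * l) hz), h12' z hz,
    h12 _ ((mem_beta k N l r hl hNl hbe z).2 hz)] at h
  have : (Place.ramificationIndexAlong (betaB k N l) z : ℤ) = 1 := by linarith
  exact_mod_cast this

end Bar

/-- restriction of places commutes with semilinear automorphisms. -/
theorem restrictAlong_smul {K F F' : Type*} [Field K] [Field F] [Field F'] [Algebra K F] [Algebra K F']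
    (φ : F →ₐ[K] F') (hφ : φ.toRingHom.IsIntegral) (g : SemilinearAut K F) (g' : SemilinearAut K F')
    (h : ∀ x, φ (g • x) = g' • φ x) (z : Place K F') :
    (g' • z).restrictAlong φ hφ = g • z.restrictAlong φ hφ := by
  ext1
  ext x
  have h1 : φ (g⁻¹ • x) = g'⁻¹ • φ x := by
    have := h (g⁻¹ • x)
    rw [smul_inv_smul] at this
    rw [this, inv_smul_smul]
  rw [SemilinearAut.smul_toValuationSubring, ValuationSubring.mem_pointwise_smul_iff_inv_smul_mem]
  change φ x ∈ (g' • z).toValuationSubring ↔ φ (g⁻¹ • x) ∈ z.toValuationSubring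
  rw [SemilinearAut.smul_toValuationSubring, ValuationSubring.mem_pointwise_smul_iff_inv_smul_mem, h1]

namespace Bar

variable [PerfectRing k r]

theorem Fr_alpha (hal : (alphaB k N l).toRingHom.IsIntegral) (z : Place k (Igusa.E k (N * l))) :
    (DR.Conc.Fr k (N * l) r • z).restrictAlong (alphaB k N l) hal =
      DR.Conc.Fr k N r • z.restrictAlong (alphaB k N l) hal := by
  refine restrictAlong_smul _ hal _ _ (fun x => ?_) z
  apply Subtype.ext
  rw [DR.Conc.Fr_smul, DR.Conc.Fr_smul, coe_alphaB, DR.Conc.coe_FrE, DR.Conc.coe_FrE, coe_alphaB]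

theorem Fr_beta (hbe : (betaB k N l).toRingHom.IsIntegral) (z : Place k (Igusa.E k (N * l))) :
    (DR.Conc.Fr k (N * l) r • z).restrictAlong (betaB k N l) hbe =
      DR.Conc.Fr k N r • z.restrictAlong (betaB k N l) hbe := by
  refine restrictAlong_smul _ hbe _ _ (fun x => ?_) z
  apply Subtype.ext
  rw [DR.Conc.Fr_smul, DR.Conc.Fr_smul, coe_betaB, DR.Conc.coe_FrE, DR.Conc.coe_FrE, coe_betaB,
    coeffMap_qExpand]

end Bar

end Fermat.Agent.S41.Nodes
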