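import Fermat.Agent.S41.Nodes.Bar
import Fermat.Agent.MR.PLC.Met.Thick

/-!
# S41 / NODES : the contract

`A` a place of `Kbar` over the prime `r`, `𝕜` its residue field, `M` neat, `r ∤ M`.
`P(M) := DR.Conc.pairHyp A M r hr hrM hA hg` is the Deligne-Rapoport pair of level `M r`; its nodes
`P(M).filt.nodes : Set (Place 𝕜 (Igusa.E 𝕜 M))`; the node `e` has the branches `p₁ e = (0, Φ e)`, `p₂ e = (1, e)`
(`P(M).nodeData`), `Φ = (frobX 𝕜 M r).Φ = (Fr 𝕜 M r • ·)`.

One level: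
* `nodes_eq : P(M).filt.nodes = SS 𝕜 r M` (the zeros of the Hasse function `hsE 𝕜 r M = Δ̄^(1-r)`, a polynomial in `j̄`);
* `card_nodes : 12 * #nodes = (r - 1) ψ(M)`;
* `Φ_Φ`, `Φ_mem` : `Φ` is an involution of the set of nodes;  `nonCusp` : the nodes are not cusps.

Two levels `N`, `N l` (`l` prime, `r ∤ N l`), `al = MR.Eis.alphaB 𝕜 N l`, `be = MR.Eis.betaB 𝕜 N l`:
* `mem_nodes_alpha`, `mem_nodes_beta` : `z|al ∈ nodes(N) ↔ z ∈ nodes(N l) ↔ z|be ∈ nodes(N)`;
* `ram_alpha`, `ram_beta` : both maps are unramified at the nodes;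
* `Φ_alpha`, `Φ_beta` : `(Φ z)|al = Φ (z|al)`, `(Φ z)|be = Φ (z|be)`;
* `graph_hS`, `graph_heal`, `graph_hebe` : the hypotheses `hS`, `heal`, `hebe` of `S41.Graph.const_on_nodes` for `S = SS 𝕜 r N`.
-/

set_option autoImplicit false
set_option linter.unusedSectionVars false
set_option linter.style.haveILetI false

noncomputable section

namespace Fermat.Agent.S41.Nodes

open Polynomial ModularCurve AlgebraicCurve Fermat.Agent.S24 Fermat.Agent.GAL
  Fermat.Agent.GAL.RED Fermat.Agent.DR Fermat.Agent.DR.Conc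
  Fermat.Agent.S36.Kron Fermat.Agent.MR.Eis Fermat.Agent.MR.PLC.Met

section one

variable (A : ValuationSubring Kbar) (M r : ℕ) [NeZero M] [NeZero r] (hr : r.Prime)
  (hrM : ¬ r ∣ M) (hA : A.LiesOverPrime r)
  [Fact r.Prime] [CharP (IsLocalRing.ResidueField ↥A) r] [PerfectRing (IsLocalRing.ResidueField ↥A) r]
  [IsAlgClosed (IsLocalRing.ResidueField ↥A)]
  [Lib.RR.IsFF (IsLocalRing.ResidueField ↥A) (Igusa.E (IsLocalRing.ResidueField ↥A) M)]
  [Lib.RR.IsFF Kbar (FN (M * r))] [Lib.RR.IsFF Kbar (FN M)]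

/-- **The nodes are the supersingular points.** -/
theorem nodes_eq (hneat : 4 ∣ M ∨ 9 ∣ M) (hg : GoodRed A M) :
    (pairHyp A M r hr hrM hA hg).filt.nodes = ↑(SS (IsLocalRing.ResidueField ↥A) r M) := by
  ext P
  constructor
  · intro hP
    exact Finset.mem_coe.2 (mem_SS_of_mem_nodes A M r hr hrM hA hneat hg hP)
  · intro hP
    obtain ⟨e, he, rfl⟩ := (mem_SS_iff A M r hr hrM hA hneat hg P).1 (Finset.mem_coe.1 hP)
    exact Φ_mem_nodes _ he

theorem mem_nodes_iff (hneat : 4 ∣ M ∨ 9 ∣ M) (hg : GoodRed A M)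
    (P : Place (IsLocalRing.ResidueField ↥A) (Igusa.E (IsLocalRing.ResidueField ↥A) M)) :
    P ∈ (pairHyp A M r hr hrM hA hg).filt.nodes ↔ P ∈ SS (IsLocalRing.ResidueField ↥A) r M := by
  rw [nodes_eq A M r hr hrM hA hneat hg, Finset.mem_coe]

/-- **(O0)** the number of nodes. -/
theorem card_nodes (hneat : 4 ∣ M ∨ 9 ∣ M) (hg : GoodRed A M) :
    12 * (pairHyp A M r hr hrM hA hg).filt.nodes.ncard = (r - 1) * dedekindPsi M := by
  rw [ncard_nodes_eq A M r hr hrM hA hneat hg]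
  exact (kron_main A M r hr hrM hA hneat).2

include hr hrM hA in
/-- `Φ` is an involution on the supersingular points. -/
theorem Φ_Φ (hneat : 4 ∣ M ∨ 9 ∣ M)
    {P : Place (IsLocalRing.ResidueField ↥A) (Igusa.E (IsLocalRing.ResidueField ↥A) M)}
    (hP : P ∈ SS (IsLocalRing.ResidueField ↥A) r M) :
    Fr (IsLocalRing.ResidueField ↥A) M r • Fr (IsLocalRing.ResidueField ↥A) M r • P = P := by
  have hM := natCast_M_ne_zero A M r hr hrM hA
  have hg := goodRed_of_neat A M hM Igusa.cuspUpper Igusa.cuspLower hneat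
  exact ((mem_nodes_iff A M r hr hrM hA hneat hg P).2 hP).2.1

include hr hrM hA in
theorem Φ_mem (hneat : 4 ∣ M ∨ 9 ∣ M)
    {P : Place (IsLocalRing.ResidueField ↥A) (Igusa.E (IsLocalRing.ResidueField ↥A) M)}
    (hP : P ∈ SS (IsLocalRing.ResidueField ↥A) r M) :
    Fr (IsLocalRing.ResidueField ↥A) M r • P ∈ SS (IsLocalRing.ResidueField ↥A) r M := by
  have hM := natCast_M_ne_zero A M r hr hrM hA
  have hg := goodRed_of_neat A M hM Igusa.cuspUpper Igusa.cuspLower hneat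
  exact Φ_mem_SS A M r hr hrM hA hneat hg ((mem_nodes_iff A M r hr hrM hA hneat hg P).2 hP)

include hr hrM hA in
/-- all the zeros of the Hasse function have order `12`. -/
theorem ord_hsE_eq_twelve (hneat : 4 ∣ M ∨ 9 ∣ M) :
    ∀ e ∈ SS (IsLocalRing.ResidueField ↥A) r M,
      e.ord (hsE (IsLocalRing.ResidueField ↥A) r M) = 12 :=
  fun e he => ((kron_main A M r hr hrM hA hneat).1 e he).1

end one

section two

variable (A : ValuationSubring Kbar) (N l r : ℕ) [NeZero N] [NeZero l] [NeZero r] (hr : r.Prime)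
  (hrN : ¬ r ∣ N) (hrNl : ¬ r ∣ N * l) (hA : A.LiesOverPrime r)
  [Fact r.Prime] [CharP (IsLocalRing.ResidueField ↥A) r] [PerfectRing (IsLocalRing.ResidueField ↥A) r]
  [IsAlgClosed (IsLocalRing.ResidueField ↥A)]
  [Lib.RR.IsFF (IsLocalRing.ResidueField ↥A) (Igusa.E (IsLocalRing.ResidueField ↥A) N)]
  [Lib.RR.IsFF (IsLocalRing.ResidueField ↥A) (Igusa.E (IsLocalRing.ResidueField ↥A) (N * l))]
  [Lib.RR.IsFF Kbar (FN (N * r))] [Lib.RR.IsFF Kbar (FN N)]
  [Lib.RR.IsFF Kbar (FN (N * l * r))] [Lib.RR.IsFF Kbar (FN (N * l))]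

theorem neat_mul {N : ℕ} (l : ℕ) (hneat : 4 ∣ N ∨ 9 ∣ N) : 4 ∣ N * l ∨ 9 ∣ N * l :=
  hneat.imp (fun h => h.mul_right l) (fun h => h.mul_right l)

/-- **(O1)** for `alphaB`, in terms of `SS`. -/
theorem mem_SS_alpha (hal : (alphaB (IsLocalRing.ResidueField ↥A) N l).toRingHom.IsIntegral)
    (z : Place (IsLocalRing.ResidueField ↥A) (Igusa.E (IsLocalRing.ResidueField ↥A) (N * l))) :
    z.restrictAlong (alphaB (IsLocalRing.ResidueField ↥A) N l) hal ∈
      SS (IsLocalRing.ResidueField ↥A) r N ↔ z ∈ SS (IsLocalRing.ResidueField ↥A) r (N * l) :=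
  Bar.mem_alpha _ N l r hal z

include hr hrNl hA in
/-- **(O1)** for `betaB`, in terms of `SS`. -/
theorem mem_SS_beta (hl : l.Prime)
    (hbe : (betaB (IsLocalRing.ResidueField ↥A) N l).toRingHom.IsIntegral)
    (z : Place (IsLocalRing.ResidueField ↥A) (Igusa.E (IsLocalRing.ResidueField ↥A) (N * l))) :
    z.restrictAlong (betaB (IsLocalRing.ResidueField ↥A) N l) hbe ∈
      SS (IsLocalRing.ResidueField ↥A) r N ↔ z ∈ SS (IsLocalRing.ResidueField ↥A) r (N * l) :=
  Bar.mem_beta _ N l r hl (natCast_M_ne_zero A (N * l) r hr hrNl hA) hbe z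

include hr hrN hrNl hA in
/-- **(O2)** for `alphaB`. -/
theorem ram_alpha (hneat : 4 ∣ N ∨ 9 ∣ N)
    (hal : (alphaB (IsLocalRing.ResidueField ↥A) N l).toRingHom.IsIntegral)
    (z : Place (IsLocalRing.ResidueField ↥A) (Igusa.E (IsLocalRing.ResidueField ↥A) (N * l)))
    (hz : z ∈ SS (IsLocalRing.ResidueField ↥A) r (N * l)) :
    Place.ramificationIndexAlong (alphaB (IsLocalRing.ResidueField ↥A) N l) z = 1 :=
  Bar.ram_alpha _ N l r (ord_hsE_eq_twelve A N r hr hrN hA hneat)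
    (ord_hsE_eq_twelve A (N * l) r hr hrNl hA (neat_mul l hneat)) hal z hz

include hr hrN hrNl hA in
/-- **(O2)** for `betaB`. -/
theorem ram_beta (hl : l.Prime) (hneat : 4 ∣ N ∨ 9 ∣ N)
    (hbe : (betaB (IsLocalRing.ResidueField ↥A) N l).toRingHom.IsIntegral)
    (z : Place (IsLocalRing.ResidueField ↥A) (Igusa.E (IsLocalRing.ResidueField ↥A) (N * l)))
    (hz : z ∈ SS (IsLocalRing.ResidueField ↥A) r (N * l)) :
    Place.ramificationIndexAlong (betaB (IsLocalRing.ResidueField ↥A) N l) z = 1 :=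
  Bar.ram_beta _ N l r hl (natCast_M_ne_zero A (N * l) r hr hrNl hA)
    (ord_hsE_eq_twelve A N r hr hrN hA hneat)
    (ord_hsE_eq_twelve A (N * l) r hr hrNl hA (neat_mul l hneat)) hbe z hz

/-- **(O1)** for `alphaB`, in terms of the nodes of the Deligne-Rapoport pairs. -/
theorem mem_nodes_alpha (hneat : 4 ∣ N ∨ 9 ∣ N) (hg : GoodRed A N) (hg' : GoodRed A (N * l))
    (hal : (alphaB (IsLocalRing.ResidueField ↥A) N l).toRingHom.IsIntegral)
    (z : Place (IsLocalRing.ResidueField ↥A) (Igusa.E (IsLocalRing.ResidueField ↥A) (N * l))) :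
    z.restrictAlong (alphaB (IsLocalRing.ResidueField ↥A) N l) hal ∈
      (pairHyp A N r hr hrN hA hg).filt.nodes ↔ z ∈ (pairHyp A (N * l) r hr hrNl hA hg').filt.nodes := by
  rw [mem_nodes_iff A N r hr hrN hA hneat hg, mem_nodes_iff A (N * l) r hr hrNl hA (neat_mul l hneat) hg']
  exact mem_SS_alpha A N l r hal z

/-- **(O1)** for `betaB`, in terms of the nodes of the Deligne-Rapoport pairs. -/
theorem mem_nodes_beta (hl : l.Prime) (hneat : 4 ∣ N ∨ 9 ∣ N) (hg : GoodRed A N)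
    (hg' : GoodRed A (N * l))
    (hbe : (betaB (IsLocalRing.ResidueField ↥A) N l).toRingHom.IsIntegral)
    (z : Place (IsLocalRing.ResidueField ↥A) (Igusa.E (IsLocalRing.ResidueField ↥A) (N * l))) :
    z.restrictAlong (betaB (IsLocalRing.ResidueField ↥A) N l) hbe ∈
      (pairHyp A N r hr hrN hA hg).filt.nodes ↔ z ∈ (pairHyp A (N * l) r hr hrNl hA hg').filt.nodes := by
  rw [mem_nodes_iff A N r hr hrN hA hneat hg, mem_nodes_iff A (N * l) r hr hrNl hA (neat_mul l hneat) hg']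
  exact mem_SS_beta A N l r hr hrNl hA hl hbe z

/-- `(Φ z)|al = Φ (z|al)`. -/
theorem Φ_alpha (hal : (alphaB (IsLocalRing.ResidueField ↥A) N l).toRingHom.IsIntegral)
    (z : Place (IsLocalRing.ResidueField ↥A) (Igusa.E (IsLocalRing.ResidueField ↥A) (N * l))) :
    ((frobX (IsLocalRing.ResidueField ↥A) (N * l) r).Φ z).restrictAlong
        (alphaB (IsLocalRing.ResidueField ↥A) N l) hal =
      (frobX (IsLocalRing.ResidueField ↥A) N r).Φ
        (z.restrictAlong (alphaB (IsLocalRing.ResidueField ↥A) N l) hal) :=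
  Bar.Fr_alpha _ N l r hal z

/-- `(Φ z)|be = Φ (z|be)`. -/
theorem Φ_beta (hbe : (betaB (IsLocalRing.ResidueField ↥A) N l).toRingHom.IsIntegral)
    (z : Place (IsLocalRing.ResidueField ↥A) (Igusa.E (IsLocalRing.ResidueField ↥A) (N * l))) :
    ((frobX (IsLocalRing.ResidueField ↥A) (N * l) r).Φ z).restrictAlong
        (betaB (IsLocalRing.ResidueField ↥A) N l) hbe =
      (frobX (IsLocalRing.ResidueField ↥A) N r).Φ
        (z.restrictAlong (betaB (IsLocalRing.ResidueField ↥A) N l) hbe) :=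
  Bar.Fr_beta _ N l r hbe z

/-! ### the hypotheses of `S41.Graph.const_on_nodes` for `S = SS 𝕜 r N` -/

include hr hrNl hA in
theorem graph_hS (hl : l.Prime)
    (hal : (alphaB (IsLocalRing.ResidueField ↥A) N l).toRingHom.IsIntegral)
    (hbe : (betaB (IsLocalRing.ResidueField ↥A) N l).toRingHom.IsIntegral)
    (z : Place (IsLocalRing.ResidueField ↥A) (Igusa.E (IsLocalRing.ResidueField ↥A) (N * l))) :
    z.restrictAlong (alphaB (IsLocalRing.ResidueField ↥A) N l) hal ∈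
        SS (IsLocalRing.ResidueField ↥A) r N ↔
      z.restrictAlong (betaB (IsLocalRing.ResidueField ↥A) N l) hbe ∈
        SS (IsLocalRing.ResidueField ↥A) r N :=
  (mem_SS_alpha A N l r hal z).trans (mem_SS_beta A N l r hr hrNl hA hl hbe z).symm

include hr hrN hrNl hA in
theorem graph_heal (hneat : 4 ∣ N ∨ 9 ∣ N)
    (hal : (alphaB (IsLocalRing.ResidueField ↥A) N l).toRingHom.IsIntegral)
    (z : Place (IsLocalRing.ResidueField ↥A) (Igusa.E (IsLocalRing.ResidueField ↥A) (N * l)))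
    (hz : z.restrictAlong (alphaB (IsLocalRing.ResidueField ↥A) N l) hal ∈
      SS (IsLocalRing.ResidueField ↥A) r N) :
    Place.ramificationIndexAlong (alphaB (IsLocalRing.ResidueField ↥A) N l) z = 1 :=
  ram_alpha A N l r hr hrN hrNl hA hneat hal z ((mem_SS_alpha A N l r hal z).1 hz)

include hr hrN hrNl hA in
theorem graph_hebe (hl : l.Prime) (hneat : 4 ∣ N ∨ 9 ∣ N)
    (hbe : (betaB (IsLocalRing.ResidueField ↥A) N l).toRingHom.IsIntegral)
    (z : Place (IsLocalRing.ResidueField ↥A) (Igusa.E (IsLocalRing.ResidueField ↥A) (N * l)))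
    (hz : z.restrictAlong (betaB (IsLocalRing.ResidueField ↥A) N l) hbe ∈
      SS (IsLocalRing.ResidueField ↥A) r N) :
    Place.ramificationIndexAlong (betaB (IsLocalRing.ResidueField ↥A) N l) z = 1 :=
  ram_beta A N l r hr hrN hrNl hA hl hneat hbe z ((mem_SS_beta A N l r hr hrNl hA hl hbe z).1 hz)

end two

end Fermat.Agent.S41.Nodes
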