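import Fermat.Agent.MR.Eis.TBar
import Fermat.Agent.MR.Eis.Defs
import Fermat.Agent.S36.Kron.Gpoly

/-!
# S41 / Nodes / Unit : the Hasse function is "isogeny invariant" off the cusps

`k` a field of characteristic `r`, `l ≠ r` a prime, `E k (N l)` the Igusa function field.
`u1 k l = Δ(t^l)/Δ(t) ∈ k((t))` and its inverse are integral over `k[j]` (S28 block B: monic equation over `ℤ[j]` with
constant coefficient `± l¹²`).  As `hsE(t)/hsE(t^l) = u1 ^ (r-1)`:

* `ord_betaB_hsE` : at every non cuspidal place `z` of `E k (N l)`, `ord_z (hsE(t^l)) = ord_z (hsE(t))`.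
-/

set_option autoImplicit false
set_option linter.unusedSectionVars false

noncomputable section

namespace Fermat.Agent.S41.Nodes.Unit

open ModularCurve Polynomial AlgebraicCurve Fermat.Agent.S28 Fermat.Agent.S36R.Unit
  Fermat.Agent.GAL Fermat.Agent.S36.Kron Fermat.Agent.MR.Eis

variable (k : Type) [Field k] (l : ℕ) [NeZero l]

/-- `l¹² Δ(t^l)/Δ(t)`. -/
def u0 : LaurentSeries k := (l : LaurentSeries k) ^ 12 * qExpand k l (DlL k) * DlLinv k

/-- `Δ(t^l)/Δ(t)`. -/
def u1 : LaurentSeries k := qExpand k l (DlL k) * DlLinv k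

theorem isIntegral_jq : IsIntegral (Algebra.adjoin k {jqModC k}) (jqModC k) :=
  isIntegral_algebraMap (R := Algebra.adjoin k {jqModC k}) (A := LaurentSeries k)
    (x := ⟨jqModC k, Algebra.subset_adjoin (Set.mem_singleton _)⟩)

theorem isIntegral_const (a : k) :
    IsIntegral (Algebra.adjoin k {jqModC k}) (algebraMap k (LaurentSeries k) a) := by
  rw [IsScalarTower.algebraMap_apply k (Algebra.adjoin k {jqModC k}) (LaurentSeries k)]
  exact isIntegral_algebraMap

theorem eval_u0 {Φ U G : ℤ[X][X]} {m : ℕ} {c : ℤ} (hB : BData l Φ U G m c) :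
    (U.map (evY (jqModC k))).eval (u0 k l) = 0 := by
  have h6 := hB.2.2.2.2.2.1
  have h7 := map_eval_evY (coeffMap (Int.castRingHom k)) (jqModC ℤ)
    ((l : LaurentSeries ℤ) ^ 12 * qExpand ℤ l (DlL ℤ) * DlLinv ℤ) U
  have h8 : (U.map (evY (jqModC ℤ))).eval
      ((l : LaurentSeries ℤ) ^ 12 * qExpand ℤ l (DlL ℤ) * DlLinv ℤ) = 0 := h6
  rw [h8, map_zero, coeffMap_jqModC, map_mul, map_mul, map_pow, map_natCast,
    ModularCurve.coeffMap_qExpand, coeffMap_DlL, coeffMap_DlLinv] at h7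
  exact h7.symm

theorem isIntegral_u0 (hl : l.Prime) : IsIntegral (Algebra.adjoin k {jqModC k}) (u0 k l) := by
  obtain ⟨Φ, U, G, m, c, hB⟩ := GAL.Igusa.hB l hl
  exact isIntegral_of_evY U hB.2.2.1 (jqModC k) _ (isIntegral_jq k) (eval_u0 k l hB)

theorem isIntegral_u0_inv (hl : l.Prime) (hlk : (l : k) ≠ 0) :
    IsIntegral (Algebra.adjoin k {jqModC k}) (u0 k l)⁻¹ := by
  obtain ⟨Φ, U, G, m, c, hB⟩ := GAL.Igusa.hB l hl
  have hcc : c * c = (l : ℤ) ^ 24 := hB.2.2.2.2.1
  have hck : (c : k) * ((c : k) * ((l : k) ^ 24)⁻¹) = 1 := by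
    have h1 : (c : k) * (c : k) = (l : k) ^ 24 := by exact_mod_cast congrArg (Int.cast : ℤ → k) hcc
    rw [← mul_assoc, h1]
    exact mul_inv_cancel₀ (pow_ne_zero _ hlk)
  refine isIntegral_inv_of_evY U hB.2.2.1 c hB.2.2.2.1
    (algebraMap k (LaurentSeries k) ((c : k) * ((l : k) ^ 24)⁻¹)) (isIntegral_const k _) ?_
    (jqModC k) _ (isIntegral_jq k) (eval_u0 k l hB)
  have h2 := congrArg (algebraMap k (LaurentSeries k)) hck
  rw [map_mul, map_one, map_intCast] at h2
  exact h2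

theorem u0_eq : u0 k l = algebraMap k (LaurentSeries k) ((l : k) ^ 12) * u1 k l := by
  rw [u0, u1, map_pow, map_natCast, mul_assoc]

theorem isIntegral_u1 (hl : l.Prime) (hlk : (l : k) ≠ 0) :
    IsIntegral (Algebra.adjoin k {jqModC k}) (u1 k l) := by
  have h : u1 k l = algebraMap k (LaurentSeries k) (((l : k) ^ 12)⁻¹) * u0 k l := by
    rw [u0_eq, ← mul_assoc, ← map_mul, inv_mul_cancel₀ (pow_ne_zero _ hlk), map_one, one_mul]
  rw [h]
  exact (isIntegral_const k _).mul (isIntegral_u0 k l hl)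

theorem isIntegral_u1_inv (hl : l.Prime) (hlk : (l : k) ≠ 0) :
    IsIntegral (Algebra.adjoin k {jqModC k}) (u1 k l)⁻¹ := by
  have h0 : algebraMap k (LaurentSeries k) ((l : k) ^ 12) ≠ 0 := by
    rw [Ne, map_eq_zero]
    exact pow_ne_zero _ hlk
  have h : (u1 k l)⁻¹ = algebraMap k (LaurentSeries k) ((l : k) ^ 12) * (u0 k l)⁻¹ := by
    rw [u0_eq, mul_inv, ← mul_assoc, mul_inv_cancel₀ h0, one_mul]
  rw [h]
  exact (isIntegral_const k _).mul (isIntegral_u0_inv k l hl hlk)

variable (r : ℕ) [NeZero r] [Fact r.Prime] [CharP k r] (N : ℕ) [NeZero N]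

/-- `hsE(t) = u1 ^ (r-1) hsE(t^l)`. -/
theorem coe_hsE_eq : ((hsE k r (N * l) : Igusa.E k (N * l)) : LaurentSeries k) =
    u1 k l ^ (r - 1) * ((betaB k N l (hsE k r N) : Igusa.E k (N * l)) : LaurentSeries k) := by
  have hr : 1 ≤ r := (Fact.out : r.Prime).one_lt.le
  have h1 : DlL k * DlLinv k = 1 := DlL_mul_DlLinv k
  have h2 : qExpand k l (DlL k) * qExpand k l (DlLinv k) = 1 := by
    rw [← map_mul, h1, map_one]
  obtain ⟨s, rfl⟩ : ∃ s, r = s + 1 := ⟨r - 1, (Nat.sub_add_cancel hr).symm⟩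
  rw [coe_betaB, coe_hsE, coe_hsE, map_mul, map_pow, u1, Nat.add_sub_cancel]
  calc DlL k * DlLinv k ^ (s + 1) = (DlL k * DlLinv k) * DlLinv k ^ s := by ring
    _ = DlLinv k ^ s * (qExpand k l (DlL k) * qExpand k l (DlLinv k)) ^ (s + 1) := by
        rw [h1, h2, one_pow, one_mul, mul_one]
    _ = _ := by ring

/-- **The Hasse function has the same order along the two degeneracy maps at the non cuspidal places.** -/
theorem ord_betaB_hsE (hl : l.Prime) (hlk : (l : k) ≠ 0) (z : Place k (Igusa.E k (N * l)))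
    (hz : 0 ≤ z.ord (Igusa.jb k (N * l))) :
    z.ord (betaB k N l (hsE k r N)) = z.ord (hsE k r (N * l)) := by
  have hb0 : betaB k N l (hsE k r N) ≠ 0 := by
    rw [Ne, map_eq_zero]
    exact hsE_ne_zero k r N
  have ha0 : hsE k r (N * l) ≠ 0 := hsE_ne_zero k r (N * l)
  set w : Igusa.E k (N * l) := hsE k r (N * l) / betaB k N l (hsE k r N) with hw
  have hcw : ((w : Igusa.E k (N * l)) : LaurentSeries k) = u1 k l ^ (r - 1) := by
    have hb0' : ((betaB k N l (hsE k r N) : Igusa.E k (N * l)) : LaurentSeries k) ≠ 0 := by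
      intro h
      exact hb0 (Subtype.ext h)
    have : ((w : Igusa.E k (N * l)) : LaurentSeries k) =
        ((hsE k r (N * l) : Igusa.E k (N * l)) : LaurentSeries k) /
          ((betaB k N l (hsE k r N) : Igusa.E k (N * l)) : LaurentSeries k) := rfl
    rw [this, coe_hsE_eq k l r N, mul_div_assoc, div_self hb0', mul_one]
  have hcw' : (((w⁻¹ : Igusa.E k (N * l))) : LaurentSeries k) = (u1 k l)⁻¹ ^ (r - 1) := by
    have : (((w⁻¹ : Igusa.E k (N * l))) : LaurentSeries k) =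
        ((w : Igusa.E k (N * l)) : LaurentSeries k)⁻¹ := rfl
    rw [this, hcw, inv_pow]
  have hj : ((Igusa.jb k (N * l) : Igusa.E k (N * l)) : LaurentSeries k) = jqModC k := rfl
  have hi1 : IsIntegral (Algebra.adjoin k {Igusa.jb k (N * l)}) w := by
    rw [← isIntegral_coe_iff, hj, hcw]
    exact (isIntegral_u1 k l hl hlk).pow _
  have hi2 : IsIntegral (Algebra.adjoin k {Igusa.jb k (N * l)}) w⁻¹ := by
    rw [← isIntegral_coe_iff, hj, hcw']
    exact (isIntegral_u1_inv k l hl hlk).pow _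
  have hjz : Igusa.jb k (N * l) ∈ z.toValuationSubring :=
    Fermat.Agent.S24.mem_of_ord_nonneg z (jb_ne_zero k (N * l)) hz
  have h1 := Fermat.Agent.S24.ord_nonneg_of_mem z (Igusa.mem_place_of_isIntegral z hjz hi1)
  have h2 := Fermat.Agent.S24.ord_nonneg_of_mem z (Igusa.mem_place_of_isIntegral z hjz hi2)
  rw [z.ord_inv] at h2
  have h3 : z.ord w = z.ord (hsE k r (N * l)) - z.ord (betaB k N l (hsE k r N)) := by
    rw [hw, div_eq_mul_inv, z.ord_mul ha0 (inv_ne_zero hb0), z.ord_inv]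
    ring
  omega

/-- the Hasse function of level `N l` is the pull back of the Hasse function of level `N`. -/
theorem alphaB_hsE : alphaB k N l (hsE k r N) = hsE k r (N * l) := by
  apply Subtype.ext
  rw [coe_alphaB, coe_hsE, coe_hsE]

omit [NeZero r] [Fact r.Prime] [CharP k r] in
/-- `j(t)` is integral over `k[j(t^l)]`. -/
theorem isIntegral_jq_over (hl : l.Prime) (ζ : kˣ) (hζ : IsPrimitiveRoot ζ l) :
    IsIntegral (Algebra.adjoin k {qExpand k l (jqModC k)}) (jqModC k) := by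
  obtain ⟨Φ, U, G, m, c, hB⟩ := GAL.Igusa.hB l hl
  have hfac := (hB.2.2.2.2.2.2 k ζ hζ).1
  have h0 : rootFin ζ 0 = jqModC k := by
    rw [rootFin]
    ext n
    simp
  have hroot : (Φ.map (evY (qExpand k l (jqModC k)))).eval (jqModC k) = 0 := by
    have e : (Φ.map (evBase l k)).eval (jqModC k) = 0 := by
      rw [hfac, eval_mul, eval_prod, Finset.prod_eq_zero (Finset.mem_range.2 hl.pos), mul_zero]
      rw [eval_sub, eval_X, eval_C, h0, sub_self]
    exact e
  refine isIntegral_of_evY Φ hB.2.1 (qExpand k l (jqModC k)) _ ?_ hroot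
  exact isIntegral_algebraMap (R := Algebra.adjoin k {qExpand k l (jqModC k)})
    (A := LaurentSeries k)
    (x := ⟨qExpand k l (jqModC k), Algebra.subset_adjoin (Set.mem_singleton _)⟩)

omit [NeZero r] [Fact r.Prime] [CharP k r] in
/-- a place of `E k (N l)` at which `j(t^l)` is regular is not a cusp. -/
theorem ord_jb_nonneg_of_betaB [IsAlgClosed k] (hl : l.Prime) (hlk : (l : k) ≠ 0)
    (z : Place k (Igusa.E k (N * l))) (hz : 0 ≤ z.ord (betaB k N l (Igusa.jb k N))) :
    0 ≤ z.ord (Igusa.jb k (N * l)) := by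
  have : NeZero (l : k) := ⟨hlk⟩
  obtain ⟨ζ₀, hζ₀⟩ := HasEnoughRootsOfUnity.exists_primitiveRoot k l
  have hζ : IsPrimitiveRoot (hζ₀.isUnit (NeZero.ne l)).unit l :=
    IsPrimitiveRoot.coe_units_iff.mp (by simpa using hζ₀)
  have hb0 : betaB k N l (Igusa.jb k N) ≠ 0 := by
    rw [Ne, map_eq_zero]
    exact jb_ne_zero k N
  have hi : IsIntegral (Algebra.adjoin k {betaB k N l (Igusa.jb k N)}) (Igusa.jb k (N * l)) := by
    rw [← isIntegral_coe_iff]
    exact isIntegral_jq_over k l hl _ hζ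
  exact Fermat.Agent.S24.ord_nonneg_of_mem z
    (Igusa.mem_place_of_isIntegral z (Fermat.Agent.S24.mem_of_ord_nonneg z hb0 hz) hi)

end Fermat.Agent.S41.Nodes.Unit
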